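import Fermat.Agent.S16lib.SwDBridge.Formal

/-!
# S16, SwD bridge (S1): level-one forms with coefficients in `A` are `A`-polynomials in `E₄, E₆`
-/

set_option autoImplicit false

noncomputable section

namespace Fermat.Agent.S16lib.SwDBridge

open UpperHalfPlane ModularForm MatrixGroups CongruenceSubgroup SlashInvariantForm
  ModularFormClass OnePoint Filter Topology Manifold Derivative EisensteinSeries Function
open Fermat.Agent.ProgramR.LevelOne Fermat.Agent.ProgramR.QExp Fermat.Agent.S28lib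

/-- `q`-expansion of `Δ` over `ℤ`. -/
def Dz : PowerSeries ℤ := PowerSeries.X * ModularCurve.dedekindEtaUnit

theorem qExpansion_discriminant' :
    qExpansion 1 (ModularForm.discriminant : ℍ → ℂ) = Dz.map (Int.castRingHom ℂ) := by
  have h := qExpansion_discriminant
  rw [show (fun τ : ℍ => ModularForm.discriminant τ) = (ModularForm.discriminant : ℍ → ℂ) from rfl]
    at h
  rw [h, Dz, map_mul, PowerSeries.map_X, ModularCurve.dedekindEtaUnit, map_pow, etaProdC]

lemma isHolPerBdd_discriminant : IsHolPerBdd 1 (ModularForm.discriminant : ℍ → ℂ) :=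
  isHolPerBdd_of_modularForm CuspForm.discriminant

/-- `Q³ - R² = 1728 Δ` in `ℤ⟦q⟧`. -/
theorem Qz_cube_sub_Rz_sq : Qz ^ 3 - Rz ^ 2 = 1728 * Dz := by
  apply map_injective_int
  have hfun : (1728 : ℂ) • (ModularForm.discriminant : ℍ → ℂ) =
      (E₄ : ℍ → ℂ) * ((E₄ : ℍ → ℂ) * (E₄ : ℍ → ℂ)) - (E₆ : ℍ → ℂ) * (E₆ : ℍ → ℂ) := by
    funext z
    simp only [Pi.smul_apply, smul_eq_mul, Pi.sub_apply, Pi.mul_apply,
      discriminant_eq_E₄_cube_sub_E₆_sq z]
    ring
  have h := congrArg (qExpansion 1) hfun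
  rw [qExpansion_smul (isHolPerBdd_discriminant.analyticAt one_pos),
    qExpansion_sub ((isHolPerBdd_E₄.mul (isHolPerBdd_E₄.mul isHolPerBdd_E₄)).analyticAt one_pos)
      ((isHolPerBdd_E₆.mul isHolPerBdd_E₆).analyticAt one_pos),
    qExpansion_mul (isHolPerBdd_E₄.analyticAt one_pos)
      ((isHolPerBdd_E₄.mul isHolPerBdd_E₄).analyticAt one_pos),
    qExpansion_mul (isHolPerBdd_E₄.analyticAt one_pos) (isHolPerBdd_E₄.analyticAt one_pos),
    qExpansion_mul (isHolPerBdd_E₆.analyticAt one_pos) (isHolPerBdd_E₆.analyticAt one_pos),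
    qExpansion_discriminant', qExpansion_E₄', qExpansion_E₆'] at h
  rw [map_sub, map_pow, map_pow, map_mul, map_ofNat, ofNat_mul_eq_smul, h]
  ring

/-! ### Series over a subring `A ⊆ ℂ` -/

section Subring

variable (A : Subring ℂ)

/-- `E₄` over `A`. -/
def QA : PowerSeries A := Qz.map (Int.castRingHom A)
/-- `E₆` over `A`. -/
def RA : PowerSeries A := Rz.map (Int.castRingHom A)
/-- `Δ` over `A`. -/
def DA : PowerSeries A := Dz.map (Int.castRingHom A)

lemma map_map_int (f : PowerSeries ℤ) :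
    (f.map (Int.castRingHom A)).map A.subtype = f.map (Int.castRingHom ℂ) := by
  ext n
  simp

lemma map_subtype_injective : Function.Injective (PowerSeries.map A.subtype) := by
  intro f g h
  ext n
  have := congrArg (PowerSeries.coeff n) h
  simpa using this

/-- The weights of `E₄, E₆`. -/
def wt : Fin 2 → ℕ := ![4, 6]

/-- Evaluation of a polynomial at `(E₄, E₆)`, as a `q`-series over `A`. -/
def evalQR (F : MvPolynomial (Fin 2) A) : PowerSeries A :=
  MvPolynomial.aeval ![QA A, RA A] F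

@[simp] lemma constantCoeff_QA : PowerSeries.constantCoeff (QA A) = 1 := by
  rw [← PowerSeries.coeff_zero_eq_constantCoeff]
  simp [QA, Qz]

@[simp] lemma constantCoeff_RA : PowerSeries.constantCoeff (RA A) = 1 := by
  rw [← PowerSeries.coeff_zero_eq_constantCoeff]
  simp [RA, Rz]

lemma QA_cube_sub_RA_sq : QA A ^ 3 - RA A ^ 2 = 1728 * DA A := by
  have h := congrArg (PowerSeries.map (Int.castRingHom A)) Qz_cube_sub_Rz_sq
  rw [map_sub, map_pow, map_pow, map_mul, map_ofNat] at h
  exact h

end Subring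

/-! ### The structure theorem -/

lemma eq_zero_of_weight {k : ℤ} (hk : k < 0 ∨ Odd k ∨ k = 2) (f : ModularForm 𝒮ℒ k) : f = 0 := by
  rcases hk with hk | hk | rfl
  · ext z
    have := ModularFormClass.levelOne_neg_weight_eq_zero hk f
    simpa using congrFun this z
  · exact ModularForm.levelOne_odd_weight_eq_zero hk f
  · have h := levelOne_weight_two_rank_zero
    exact (rank_zero_iff_forall_zero.mp h) f

lemma exists_monomial_weight {k : ℤ} (h0 : 0 ≤ k) (heven : Even k) (h2 : k ≠ 2) :
    ∃ α β : ℕ, (4 : ℤ) * α + 6 * β = k := by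
  obtain ⟨m, hm⟩ := heven
  have hm0 : 0 ≤ m := by omega
  obtain ⟨m', rfl⟩ := Int.eq_ofNat_of_zero_le hm0
  have hm1 : m' ≠ 1 := by rintro rfl; omega
  rcases Nat.even_or_odd' m' with ⟨t, ht | ht⟩
  · exact ⟨t, 0, by subst ht; push_cast at hm ⊢; omega⟩
  · have ht1 : 1 ≤ t := by omega
    exact ⟨t - 1, 1, by subst ht; push_cast [Nat.cast_sub ht1] at hm ⊢; omega⟩

lemma isWeightedHomogeneous_structure {R : Type*} [CommRing R] (a₀ c : R) (α β n : ℕ)
    (hn : 4 * α + 6 * β = n) (H : MvPolynomial (Fin 2) R)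
    (hH : H = 0 ∨ (12 ≤ n ∧ H.IsWeightedHomogeneous wt (n - 12))) :
    (MvPolynomial.C a₀ * (MvPolynomial.X 0 ^ α * MvPolynomial.X 1 ^ β) +
      MvPolynomial.C c * ((MvPolynomial.X 0 ^ 3 - MvPolynomial.X 1 ^ 2) * H)).IsWeightedHomogeneous
        wt n := by
  have hw0 : wt 0 = 4 := rfl
  have hw1 : wt 1 = 6 := rfl
  have h1 : (MvPolynomial.C a₀ * (MvPolynomial.X 0 ^ α * MvPolynomial.X 1 ^ β) :
      MvPolynomial (Fin 2) R).IsWeightedHomogeneous wt n := by
    have hX0 := (MvPolynomial.isWeightedHomogeneous_X R wt (0 : Fin 2)).pow α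
    have hX1 := (MvPolynomial.isWeightedHomogeneous_X R wt (1 : Fin 2)).pow β
    have := (hX0.mul hX1).C_mul a₀
    rw [hw0, hw1] at this
    have e : α • 4 + β • 6 = n := by simp only [smul_eq_mul]; omega
    rwa [e] at this
  rcases hH with rfl | ⟨hn12, hHw⟩
  · simpa using h1
  · refine h1.add ?_
    have hX0 := (MvPolynomial.isWeightedHomogeneous_X R wt (0 : Fin 2)).pow 3
    have hX1 := (MvPolynomial.isWeightedHomogeneous_X R wt (1 : Fin 2)).pow 2
    rw [hw0] at hX0
    rw [hw1] at hX1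
    have h12 : ((MvPolynomial.X 0 ^ 3 - MvPolynomial.X 1 ^ 2 :
        MvPolynomial (Fin 2) R)).IsWeightedHomogeneous wt 12 := hX0.sub hX1
    have := (h12.mul hHw).C_mul c
    have e : 12 + (n - 12) = n := by omega
    rwa [e] at this

section Main

variable (A : Subring ℂ)

/-- the inverse of `Δ/q` over `A`. -/
def UinvA : PowerSeries A := ModularCurve.dedekindEtaUnitInv.map (Int.castRingHom A)

lemma DA_mul_UinvA : DA A * UinvA A = PowerSeries.X := by
  rw [DA, UinvA, ← map_mul, Dz, mul_assoc, ModularCurve.dedekindEtaUnit_mul_inv, mul_one,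
    PowerSeries.map_X]

lemma evalQR_X0 : evalQR A (MvPolynomial.X 0) = QA A := by simp [evalQR]
lemma evalQR_X1 : evalQR A (MvPolynomial.X 1) = RA A := by simp [evalQR]
lemma evalQR_C (c : A) : evalQR A (MvPolynomial.C c) = PowerSeries.C c := by
  simp [evalQR]
lemma evalQR_mul (F G : MvPolynomial (Fin 2) A) : evalQR A (F * G) = evalQR A F * evalQR A G :=
  map_mul _ _ _
lemma evalQR_add (F G : MvPolynomial (Fin 2) A) : evalQR A (F + G) = evalQR A F + evalQR A G :=
  map_add _ _ _
lemma evalQR_sub (F G : MvPolynomial (Fin 2) A) : evalQR A (F - G) = evalQR A F - evalQR A G :=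
  map_sub _ _ _
lemma evalQR_pow (F : MvPolynomial (Fin 2) A) (n : ℕ) : evalQR A (F ^ n) = evalQR A F ^ n :=
  map_pow _ _ _

lemma qExpansion_monomialForm (α β : ℕ) :
    qExpansion 1 ((E₄.pow α).mul (E₆.pow β)) =
      ((QA A ^ α * RA A ^ β).map A.subtype) := by
  rw [ModularForm.qExpansion_mul one_pos one_mem_strictPeriods_SL,
    ModularForm.qExpansion_pow one_pos one_mem_strictPeriods_SL,
    ModularForm.qExpansion_pow one_pos one_mem_strictPeriods_SL, qExpansion_E₄', qExpansion_E₆',
    map_mul, map_pow, map_pow, QA, RA, map_map_int, map_map_int]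

/-- **(S1)**: a level-one modular form whose `q`-expansion has coefficients in a subring `A ∋ 1/1728`
is a weighted-homogeneous `A`-polynomial in `E₄, E₆`. -/
theorem exists_poly (h1728 : (1728 : ℂ)⁻¹ ∈ A) :
    ∀ (n : ℕ) (k : ℤ), k.toNat = n → ∀ (f : ModularForm 𝒮ℒ k) (a : PowerSeries A),
      a.map A.subtype = qExpansion 1 f →
      ∃ F : MvPolynomial (Fin 2) A, F.IsWeightedHomogeneous wt n ∧ evalQR A F = a := by
  intro n
  induction n using Nat.strong_induction_on with
  | _ n ih =>
  intro k hk f a ha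
  by_cases hz : k < 0 ∨ Odd k ∨ k = 2
  · have hf : f = 0 := eq_zero_of_weight hz f
    refine ⟨0, MvPolynomial.isWeightedHomogeneous_zero _ _ _, ?_⟩
    apply map_subtype_injective A
    rw [ha, hf]
    simp [evalQR, qExpansion_zero]
  · push Not at hz
    obtain ⟨h0, hodd, h2⟩ := hz
    have heven : Even k := Int.not_odd_iff_even.mp hodd
    obtain ⟨α, β, hαβ⟩ := exists_monomial_weight h0 heven h2
    have hwt : (α : ℤ) * 4 + (β : ℤ) * 6 = k := by linarith
    set mon : ModularForm 𝒮ℒ k := ModularForm.mcast hwt ((E₄.pow α).mul (E₆.pow β)) with hmon_def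
    have hmon : qExpansion 1 mon = ((QA A ^ α * RA A ^ β).map A.subtype) := by
      rw [hmon_def, ModularForm.qExpansion_mcast, qExpansion_monomialForm]
    set a₀ : A := PowerSeries.coeff 0 a with ha₀
    set gA : PowerSeries A := a - PowerSeries.C a₀ * (QA A ^ α * RA A ^ β) with hgA
    set g : ModularForm 𝒮ℒ k := f - ((a₀ : A) : ℂ) • mon with hg_def
    have hg : qExpansion 1 g = gA.map A.subtype := by
      have h1 : (g : ℍ → ℂ) = (f : ℍ → ℂ) - (((a₀ : A) : ℂ) • mon : ModularForm 𝒮ℒ k) := rfl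
      rw [h1, ModularForm.qExpansion_sub one_pos one_mem_strictPeriods_SL f
        ((((a₀ : A) : ℂ) • mon : ModularForm 𝒮ℒ k))]
      have h2 : ((((a₀ : A) : ℂ) • mon : ModularForm 𝒮ℒ k) : ℍ → ℂ) =
          ((a₀ : A) : ℂ) • (mon : ℍ → ℂ) := rfl
      rw [h2, ModularForm.qExpansion_smul one_pos one_mem_strictPeriods_SL, hmon, ← ha, hgA,
        map_sub, map_mul (PowerSeries.map A.subtype) (PowerSeries.C a₀), PowerSeries.map_C,
        PowerSeries.smul_eq_C_mul]
      rfl
    have hcusp : (qExpansion 1 g).coeff 0 = 0 := by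
      rw [hg, PowerSeries.coeff_map, hgA]
      simp [ha₀]
    set h := CuspForm.discriminantEquiv (ModularForm.toCuspForm g hcusp) with hh_def
    have hgh : qExpansion 1 g = qExpansion 1 ModularForm.discriminant * qExpansion 1 h :=
      ModularForm.qExpansion_eq_qExpansion_discriminant_mul g hcusp
    -- the `A`-series of `h`
    set hA : PowerSeries A := PowerSeries.mk fun m => PowerSeries.coeff (m + 1) (UinvA A * gA)
      with hhA
    have hXh : PowerSeries.X * qExpansion 1 h = (UinvA A * gA).map A.subtype := by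
      rw [map_mul, ← hg, hgh, qExpansion_discriminant', ← map_map_int A Dz, ← mul_assoc,
        ← map_mul, ← DA, mul_comm (UinvA A), DA_mul_UinvA, PowerSeries.map_X]
    have hhAmap : hA.map A.subtype = qExpansion 1 h := by
      ext m
      rw [PowerSeries.coeff_map, hhA, PowerSeries.coeff_mk, ← PowerSeries.coeff_map, ← hXh,
        PowerSeries.coeff_succ_X_mul]
    have hgDh : gA = DA A * hA := by
      apply map_subtype_injective A
      rw [map_mul, hhAmap, ← hg, hgh, qExpansion_discriminant', DA, map_map_int]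
    -- the polynomial for `h`
    obtain ⟨H, hHw, hHe⟩ : ∃ H : MvPolynomial (Fin 2) A,
        (H = 0 ∨ (12 ≤ n ∧ H.IsWeightedHomogeneous wt (n - 12))) ∧ evalQR A H = hA := by
      by_cases hk12 : k < 12
      · have hh0 : h = 0 := eq_zero_of_weight (Or.inl (by omega)) h
        refine ⟨0, Or.inl rfl, ?_⟩
        apply map_subtype_injective A
        rw [hhAmap, hh0]
        simp [evalQR, qExpansion_zero]
      · push Not at hk12
        have hn12 : 12 ≤ n := by omega
        obtain ⟨H, hH1, hH2⟩ := ih (n - 12) (by omega) (k - 12) (by omega) h hA hhAmap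
        exact ⟨H, Or.inr ⟨hn12, hH1⟩, hH2⟩
    set c : A := ⟨(1728 : ℂ)⁻¹, h1728⟩ with hc
    have hc1728 : c * 1728 = 1 := by
      apply Subtype.ext
      rw [hc]
      push_cast
      exact inv_mul_cancel₀ (by norm_num)
    refine ⟨MvPolynomial.C a₀ * (MvPolynomial.X 0 ^ α * MvPolynomial.X 1 ^ β) +
      MvPolynomial.C c * ((MvPolynomial.X 0 ^ 3 - MvPolynomial.X 1 ^ 2) * H), ?_, ?_⟩
    · exact isWeightedHomogeneous_structure a₀ c α β n (by omega) H hHw
    · rw [evalQR_add, evalQR_mul, evalQR_mul, evalQR_mul, evalQR_mul, evalQR_sub, evalQR_pow,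
        evalQR_pow, evalQR_pow, evalQR_pow, evalQR_C, evalQR_C, evalQR_X0, evalQR_X1, hHe,
        QA_cube_sub_RA_sq]
      have : PowerSeries.C c * (1728 * DA A * hA) = DA A * hA := by
        have h1 : PowerSeries.C c * (1728 : PowerSeries A) = 1 := by
          rw [← map_ofNat (PowerSeries.C (R := A)) 1728, ← map_mul, hc1728, map_one]
        calc PowerSeries.C c * (1728 * DA A * hA) = (PowerSeries.C c * 1728) * (DA A * hA) := by ring
          _ = DA A * hA := by rw [h1, one_mul]
      rw [this, ← hgDh, hgA]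
      ring

end Main

end Fermat.Agent.S16lib.SwDBridge
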