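import Fermat.Agent.S16lib.SwDBridge.Hasse
import Fermat.Agent.S16lib.SwDAlg

/-!
# S16, SwD bridge: the analytic Swinnerton-Dyer theorem

A level-one modular form whose `q`-expansion is `ℓ`-integral and congruent to a nonzero constant
modulo (a prime above) `ℓ ≥ 5` has weight divisible by `ℓ - 1`.
-/

set_option autoImplicit false

noncomputable section

namespace Fermat.Agent.S16lib.SwDBridge

open UpperHalfPlane ModularForm MatrixGroups CongruenceSubgroup SlashInvariantForm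
  ModularFormClass OnePoint Filter Topology Manifold Derivative EisensteinSeries Function
open Fermat.Agent.ProgramR.LevelOne Fermat.Agent.ProgramR.QExp Fermat.Agent.S28lib

/-! ### Reduction of `P, Q, R` to an arbitrary commutative ring -/

section Reduction

variable (κ : Type*) [CommRing κ]

/-- `E₂` over `κ`. -/
def Pk : PowerSeries κ := Pz.map (Int.castRingHom κ)
/-- `E₄` over `κ`. -/
def Qk : PowerSeries κ := Qz.map (Int.castRingHom κ)
/-- `E₆` over `κ`. -/
def Rk : PowerSeries κ := Rz.map (Int.castRingHom κ)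

lemma constantCoeff_Qk : PowerSeries.constantCoeff (Qk κ) = 1 := by
  rw [← PowerSeries.coeff_zero_eq_constantCoeff]
  simp [Qk, Qz]

lemma constantCoeff_Rk : PowerSeries.constantCoeff (Rk κ) = 1 := by
  rw [← PowerSeries.coeff_zero_eq_constantCoeff]
  simp [Rk, Rz]

lemma three_theta_Qk :
    3 * (PowerSeries.X * PowerSeries.derivative κ (Qk κ)) = Pk κ * Qk κ - Rk κ := by
  have h := congrArg (PowerSeries.map (Int.castRingHom κ)) three_theta_Qz
  rw [map_mul, map_sub, map_mul, map_ofNat, ← thetaPS_map, thetaPS_eq_X_mul_derivative] at h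
  exact h

lemma two_theta_Rk :
    2 * (PowerSeries.X * PowerSeries.derivative κ (Rk κ)) = Pk κ * Rk κ - Qk κ ^ 2 := by
  have h := congrArg (PowerSeries.map (Int.castRingHom κ)) two_theta_Rz
  rw [map_mul, map_sub, map_mul, map_pow, map_ofNat, ← thetaPS_map, thetaPS_eq_X_mul_derivative] at h
  exact h

lemma twelve_theta_Pk :
    12 * (PowerSeries.X * PowerSeries.derivative κ (Pk κ)) = Pk κ ^ 2 - Qk κ := by
  have h := congrArg (PowerSeries.map (Int.castRingHom κ)) twelve_theta_Pz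
  rw [map_mul, map_sub, map_pow, map_ofNat, ← thetaPS_map, thetaPS_eq_X_mul_derivative] at h
  exact h

lemma Qk_cube_sub_Rk_sq :
    Qk κ ^ 3 - Rk κ ^ 2 =
      1728 * (PowerSeries.X * ModularCurve.dedekindEtaUnit.map (Int.castRingHom κ)) := by
  have h := congrArg (PowerSeries.map (Int.castRingHom κ)) Qz_cube_sub_Rz_sq
  rw [map_sub, map_pow, map_pow, map_mul, map_ofNat, Dz, map_mul, PowerSeries.map_X] at h
  exact h

lemma order_Qk_cube_sub_Rk_sq (h1728 : (1728 : κ) ≠ 0) : (Qk κ ^ 3 - Rk κ ^ 2).order = 1 := by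
  have h1 : ((1 : ℕ) : ℕ∞) = 1 := rfl
  rw [← h1, PowerSeries.order_eq_nat, Qk_cube_sub_Rk_sq]
  have hC : (1728 : PowerSeries κ) = PowerSeries.C (1728 : κ) := by
    rw [map_ofNat]
  constructor
  · rw [hC, PowerSeries.coeff_C_mul, PowerSeries.coeff_succ_X_mul, PowerSeries.coeff_map,
      PowerSeries.coeff_zero_eq_constantCoeff, ModularCurve.constantCoeff_dedekindEtaUnit]
    simpa using h1728
  · intro i hi
    have hi0 : i = 0 := by omega
    subst hi0
    rw [hC, PowerSeries.coeff_C_mul, PowerSeries.coeff_zero_X_mul, mul_zero]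

end Reduction

/-! ### Base change of polynomial evaluation -/

lemma aeval_map_powerSeries {R S : Type*} [CommRing R] [CommRing S] (φ : R →+* S)
    (g : Fin 2 → PowerSeries R) (F : MvPolynomial (Fin 2) R) :
    MvPolynomial.aeval (fun i => (g i).map φ) (MvPolynomial.map φ F) =
      (MvPolynomial.aeval g F).map φ := by
  induction F using MvPolynomial.induction_on with
  | C a =>
    simp only [MvPolynomial.map_C, MvPolynomial.aeval_C, PowerSeries.algebraMap_eq,
      PowerSeries.map_C]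
  | add p q hp hq => simp only [map_add, hp, hq]
  | mul_X p i hp => simp only [map_mul, MvPolynomial.map_X, MvPolynomial.aeval_X, hp]

lemma isWeightedHomogeneous_map {R S : Type*} [CommRing R] [CommRing S] (φ : R →+* S)
    {w : Fin 2 → ℕ} {n : ℕ} {F : MvPolynomial (Fin 2) R} (hF : F.IsWeightedHomogeneous w n) :
    (MvPolynomial.map φ F).IsWeightedHomogeneous w n := by
  intro d hd
  rw [MvPolynomial.coeff_map] at hd
  exact hF (fun h0 => hd (by rw [h0, map_zero]))

lemma map_QA_RA (A : Subring ℂ) {κ : Type*} [CommRing κ] (red : A →+* κ) :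
    (fun i => (![QA A, RA A] i).map red) = ![Qk κ, Rk κ] := by
  funext i
  fin_cases i
  · ext n
    simp [QA, Qk]
  · ext n
    simp [RA, Rk]

/-! ### The theorem -/

open PowerSeries in
/-- **Swinnerton-Dyer (analytic form).**  Let `ℓ ≥ 5` be prime, `A ⊆ ℂ` a subring containing
`ℤ_(ℓ)`, and `red : A → κ` a ring hom to a field of characteristic `ℓ`.  If a level-one modular
form `f` of weight `k` has `q`-expansion in `A⟦q⟧` whose reduction is a nonzero constant, then
`(ℓ - 1) ∣ k`. -/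
theorem swd_const {ℓ : ℕ} [Fact ℓ.Prime] (hℓ : 5 ≤ ℓ) (A : Subring ℂ)
    (hA : ∀ n : ℕ, ¬ ℓ ∣ n → ((n : ℂ))⁻¹ ∈ A)
    {κ : Type*} [Field κ] [CharP κ ℓ] (red : A →+* κ)
    {k : ℤ} (f : ModularForm 𝒮ℒ k) (a : PowerSeries A)
    (ha : a.map A.subtype = qExpansion 1 f)
    (h0 : red (coeff 0 a) ≠ 0) (hn : ∀ n, 1 ≤ n → red (coeff n a) = 0) : ((ℓ : ℤ) - 1) ∣ k := by
  have hℓp : ℓ.Prime := Fact.out
  -- the weight is nonnegative
  have hk0 : 0 ≤ k := by
    by_contra hneg
    push Not at hneg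
    have hf : f = 0 := eq_zero_of_weight (Or.inl hneg) f
    have ha0 : a = 0 := by
      apply map_subtype_injective A
      rw [ha, hf]
      simp [qExpansion_zero]
    exact h0 (by rw [ha0]; simp)
  have h1728A : (1728 : ℂ)⁻¹ ∈ A := by
    have := hA 1728 (fun hdvd => by
      have h2 : ℓ ∣ 2 ^ 6 * 3 ^ 3 := by norm_num; exact hdvd
      rcases (Nat.Prime.dvd_mul hℓp).mp h2 with h | h
      · have := Nat.le_of_dvd (by norm_num) (hℓp.dvd_of_dvd_pow h); omega
      · have := Nat.le_of_dvd (by norm_num) (hℓp.dvd_of_dvd_pow h); omega)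
    simpa using this
  have h1728κ : (1728 : κ) ≠ 0 := by
    intro h
    have h1 : ((1728 : ℕ) : κ) = 0 := by exact_mod_cast h
    rw [CharP.cast_eq_zero_iff κ ℓ] at h1
    have h2 : ℓ ∣ 2 ^ 6 * 3 ^ 3 := by norm_num; exact h1
    rcases (Nat.Prime.dvd_mul hℓp).mp h2 with h | h
    · have := Nat.le_of_dvd (by norm_num) (hℓp.dvd_of_dvd_pow h); omega
    · have := Nat.le_of_dvd (by norm_num) (hℓp.dvd_of_dvd_pow h); omega
  -- the polynomial of `f`
  obtain ⟨F, hFw, hFe⟩ := exists_poly A h1728A k.toNat k rfl f a ha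
  -- the Hasse invariant
  have hk3 : 3 ≤ ℓ - 1 := by omega
  obtain ⟨aE, haE, haE0, haEn⟩ := exists_hasse_series A hℓp hℓ hA hk3
  obtain ⟨FE, hEw, hEe⟩ := exists_poly A h1728A (ℓ - 1) ((ℓ - 1 : ℕ) : ℤ) (by simp) (E hk3) aE haE
  have hred_aE : aE.map red = 1 := by
    ext n
    rw [PowerSeries.coeff_map, PowerSeries.coeff_one]
    split_ifs with hn0
    · rw [hn0, haE0, map_one]
    · obtain ⟨y, hy⟩ := haEn n (by omega)
      rw [hy, map_mul, map_natCast, CharP.cast_eq_zero, zero_mul]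
  have hred_a : a.map red = PowerSeries.C (red (coeff 0 a)) := by
    ext n
    rw [PowerSeries.coeff_map, PowerSeries.coeff_C]
    split_ifs with hn0
    · rw [hn0]
    · exact hn n (by omega)
  have hdvd : (ℓ - 1) ∣ k.toNat := by
    refine SwD.swd_const (κ := κ) (ℓ := ℓ) hℓ (Pk κ) (Qk κ) (Rk κ) (constantCoeff_Qk κ)
      (constantCoeff_Rk κ) (three_theta_Qk κ) (two_theta_Rk κ) (twelve_theta_Pk κ)
      (order_Qk_cube_sub_Rk_sq κ h1728κ) (A := MvPolynomial.map red FE)
      (isWeightedHomogeneous_map red hEw) ?_ (F := MvPolynomial.map red F)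
      (isWeightedHomogeneous_map red hFw) (c := red (coeff 0 a)) h0 ?_
    · rw [← map_QA_RA A red, aeval_map_powerSeries]
      exact (congrArg (PowerSeries.map red) hEe).trans hred_aE
    · rw [← map_QA_RA A red, aeval_map_powerSeries]
      exact (congrArg (PowerSeries.map red) hFe).trans hred_a
  have h1 : ((ℓ - 1 : ℕ) : ℤ) ∣ ((k.toNat : ℕ) : ℤ) := Int.natCast_dvd_natCast.mpr hdvd
  rw [Int.toNat_of_nonneg hk0, Nat.cast_sub (by omega)] at h1
  simpa using h1

/-- Ideal form of `swd_const`. -/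
theorem swd_const_ideal {ℓ : ℕ} [Fact ℓ.Prime] (hℓ : 5 ≤ ℓ) (A : Subring ℂ)
    (hA : ∀ n : ℕ, ¬ ℓ ∣ n → ((n : ℂ))⁻¹ ∈ A)
    (𝔪 : Ideal A) [𝔪.IsMaximal] (hℓ𝔪 : ((ℓ : ℕ) : A) ∈ 𝔪)
    {k : ℤ} (f : ModularForm 𝒮ℒ k) (hf : ∀ n, (qExpansion 1 f).coeff n ∈ A)
    (h0 : (⟨_, hf 0⟩ : A) ∉ 𝔪) (hn : ∀ n, 1 ≤ n → (⟨_, hf n⟩ : A) ∈ 𝔪) : ((ℓ : ℤ) - 1) ∣ k := by
  letI : Field (A ⧸ 𝔪) := Ideal.Quotient.field 𝔪
  haveI : CharP (A ⧸ 𝔪) ℓ := by
    have hℓp : ℓ.Prime := Fact.out
    have h0' : ((ℓ : ℕ) : A ⧸ 𝔪) = 0 := by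
      have := Ideal.Quotient.eq_zero_iff_mem.mpr hℓ𝔪
      simpa using this
    exact (CharP.charP_iff_prime_eq_zero hℓp).mpr h0'
  refine swd_const hℓ A hA (Ideal.Quotient.mk 𝔪) f (PowerSeries.mk fun n => ⟨_, hf n⟩) ?_ ?_ ?_
  · ext n
    simp
  · rw [PowerSeries.coeff_mk]
    exact fun h => h0 (Ideal.Quotient.eq_zero_iff_mem.mp h)
  · intro n hn1
    rw [PowerSeries.coeff_mk]
    exact Ideal.Quotient.eq_zero_iff_mem.mpr (hn n hn1)

end Fermat.Agent.S16lib.SwDBridge
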