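import Fermat.Agent.S16lib.SwDBridge.DE2
import Fermat.Agent.S28lib.ThetaAnalytic

/-!
# S16, SwD bridge: formal Ramanujan identities over `ℤ`

`Pz, Qz, Rz : PowerSeries ℤ` are the `q`-expansions of `E₂, E₄, E₆`, and
`3 θQ = PQ - R`, `2 θR = PR - Q²`, `12 θP = P² - Q` hold in `ℤ⟦q⟧`, hence in `κ⟦q⟧` for every
commutative ring `κ`.
-/

set_option autoImplicit false

noncomputable section

namespace Fermat.Agent.S16lib.SwDBridge

open UpperHalfPlane ModularForm MatrixGroups CongruenceSubgroup SlashInvariantForm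
  ModularFormClass OnePoint Filter Topology Manifold Derivative EisensteinSeries Function
open Fermat.Agent.ProgramR.LevelOne Fermat.Agent.ProgramR.QExp Fermat.Agent.S28lib

/-! ### The Euler derivation on power series -/

/-- `θ = q d/dq` on power series. -/
def thetaPS (R : Type*) [CommRing R] (f : PowerSeries R) : PowerSeries R :=
  PowerSeries.mk fun n => (n : R) * PowerSeries.coeff n f

@[simp] lemma coeff_thetaPS {R : Type*} [CommRing R] (f : PowerSeries R) (n : ℕ) :
    PowerSeries.coeff n (thetaPS R f) = (n : R) * PowerSeries.coeff n f :=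
  PowerSeries.coeff_mk _ _

lemma thetaPS_eq_X_mul_derivative {R : Type*} [CommRing R] (f : PowerSeries R) :
    thetaPS R f = PowerSeries.X * PowerSeries.derivative R f := by
  ext n
  rcases n with _ | n
  · simp
  · rw [coeff_thetaPS, PowerSeries.coeff_succ_X_mul, PowerSeries.coeff_derivative]
    push_cast
    ring

lemma thetaPS_map {R S : Type*} [CommRing R] [CommRing S] (φ : R →+* S) (f : PowerSeries R) :
    thetaPS S (f.map φ) = (thetaPS R f).map φ := by
  ext n; simp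

lemma thetaPS_add {R : Type*} [CommRing R] (f g : PowerSeries R) :
    thetaPS R (f + g) = thetaPS R f + thetaPS R g := by
  ext n; simp [mul_add]

lemma thetaPS_mul {R : Type*} [CommRing R] (f g : PowerSeries R) :
    thetaPS R (f * g) = thetaPS R f * g + f * thetaPS R g := by
  rw [thetaPS_eq_X_mul_derivative, thetaPS_eq_X_mul_derivative, thetaPS_eq_X_mul_derivative,
    Derivation.leibniz]
  simp only [smul_eq_mul]
  ring

/-! ### The integral series -/

/-- `1 + c ∑ σ_k(n) qⁿ ∈ ℤ⟦q⟧`. -/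
def sigmaSeries (k : ℕ) (c : ℤ) : PowerSeries ℤ :=
  PowerSeries.mk fun n => if n = 0 then 1 else c * (ArithmeticFunction.sigma k n : ℤ)

@[simp] lemma coeff_sigmaSeries (k : ℕ) (c : ℤ) (n : ℕ) :
    PowerSeries.coeff n (sigmaSeries k c) =
      if n = 0 then 1 else c * (ArithmeticFunction.sigma k n : ℤ) :=
  PowerSeries.coeff_mk _ _

/-- `q`-expansion of `E₂`. -/
def Pz : PowerSeries ℤ := sigmaSeries 1 (-24)
/-- `q`-expansion of `E₄`. -/
def Qz : PowerSeries ℤ := sigmaSeries 3 240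
/-- `q`-expansion of `E₆`. -/
def Rz : PowerSeries ℤ := sigmaSeries 5 (-504)

lemma isHolPerBdd_E2 : IsHolPerBdd 1 E2 :=
  ⟨E2_mdifferentiable, E2_periodic, isBoundedAtImInfty_E2⟩

theorem qExpansion_E2 : qExpansion 1 E2 = Pz.map (Int.castRingHom ℂ) := by
  have h := qExpansion_eq_of_hasSum (f := E2)
    (c := fun m : ℕ ↦ (if m = 0 then 1 else -24 * (ArithmeticFunction.sigma 1 m : ℂ))) one_pos
    (isHolPerBdd_E2.analyticAt one_pos)
    (fun τ ↦ by
      simpa only [Function.Periodic.qParam, Complex.ofReal_one, div_one] using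
        hasSum_qExpansion_E2 (z := τ))
  rw [h]
  ext n
  simp only [PowerSeries.coeff_mk, PowerSeries.coeff_map, Pz, coeff_sigmaSeries]
  split_ifs <;> simp

theorem qExpansion_E₄' : qExpansion 1 (E₄ : ℍ → ℂ) = Qz.map (Int.castRingHom ℂ) := by
  ext m
  rw [EisensteinSeries.E_qExpansion_coeff (by norm_num : 3 ≤ 4) (by decide) m,
    PowerSeries.coeff_map, Qz, coeff_sigmaSeries]
  split_ifs with hm
  · simp
  · have hb : bernoulli 4 = -1 / 30 := by
      rw [bernoulli, bernoulli'_four]; norm_num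
    rw [hb]
    simp only [ArithmeticFunction.sigma_apply, eq_intCast]
    push_cast
    ring

theorem qExpansion_E₆' : qExpansion 1 (E₆ : ℍ → ℂ) = Rz.map (Int.castRingHom ℂ) := by
  ext m
  rw [EisensteinSeries.E_qExpansion_coeff (by norm_num : 3 ≤ 6) (by decide) m,
    PowerSeries.coeff_map, Rz, coeff_sigmaSeries]
  split_ifs with hm
  · simp
  · have hb : bernoulli 6 = 1 / 42 := by decide +kernel
    rw [hb]
    simp only [ArithmeticFunction.sigma_apply, eq_intCast]
    push_cast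
    ring

/-! ### Ramanujan's identities for the `q`-expansions -/

lemma isHolPerBdd_E₄ : IsHolPerBdd 1 (E₄ : ℍ → ℂ) := isHolPerBdd_of_modularForm E₄

lemma isHolPerBdd_E₆ : IsHolPerBdd 1 (E₆ : ℍ → ℂ) := isHolPerBdd_of_modularForm E₆

lemma qExpansion_D_eq_thetaPS {f : ℍ → ℂ} (hf : IsHolPerBdd 1 f) :
    qExpansion 1 (D f) = thetaPS ℂ (qExpansion 1 f) :=
  qExpansion_D hf

lemma ofNat_mul_eq_smul (k : ℕ) [k.AtLeastTwo] (f : PowerSeries ℂ) :
    (OfNat.ofNat k : PowerSeries ℂ) * f = (OfNat.ofNat k : ℂ) • f := by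
  rw [← map_ofNat (PowerSeries.C (R := ℂ)) k, PowerSeries.smul_eq_C_mul]

lemma map_injective_int : Function.Injective (PowerSeries.map (Int.castRingHom ℂ)) := by
  intro f g h
  ext n
  have := congrArg (PowerSeries.coeff n) h
  simpa using this

/-- `3 θQ = PQ - R` in `ℤ⟦q⟧`. -/
theorem three_theta_Qz : 3 * thetaPS ℤ Qz = Pz * Qz - Rz := by
  apply map_injective_int
  have hfun : (3 : ℂ) • D (E₄ : ℍ → ℂ) = E2 * (E₄ : ℍ → ℂ) - (E₆ : ℍ → ℂ) := by
    funext z
    simp only [Pi.smul_apply, smul_eq_mul, Pi.sub_apply, Pi.mul_apply, D_E₄ z]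
    ring
  have h := congrArg (qExpansion 1) hfun
  rw [qExpansion_smul ((isHolPerBdd_D isHolPerBdd_E₄).analyticAt one_pos),
    qExpansion_sub ((isHolPerBdd_E2.mul isHolPerBdd_E₄).analyticAt one_pos)
      (isHolPerBdd_E₆.analyticAt one_pos),
    qExpansion_mul (isHolPerBdd_E2.analyticAt one_pos) (isHolPerBdd_E₄.analyticAt one_pos),
    qExpansion_D_eq_thetaPS isHolPerBdd_E₄, qExpansion_E2, qExpansion_E₄', qExpansion_E₆',
    thetaPS_map] at h
  rw [map_mul, map_sub, map_mul, ← h, map_ofNat, ofNat_mul_eq_smul]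

/-- `2 θR = PR - Q²` in `ℤ⟦q⟧`. -/
theorem two_theta_Rz : 2 * thetaPS ℤ Rz = Pz * Rz - Qz ^ 2 := by
  apply map_injective_int
  have hfun : (2 : ℂ) • D (E₆ : ℍ → ℂ) = E2 * (E₆ : ℍ → ℂ) - (E₄ : ℍ → ℂ) * (E₄ : ℍ → ℂ) := by
    funext z
    simp only [Pi.smul_apply, smul_eq_mul, Pi.sub_apply, Pi.mul_apply, D_E₆ z]
    ring
  have h := congrArg (qExpansion 1) hfun
  rw [qExpansion_smul ((isHolPerBdd_D isHolPerBdd_E₆).analyticAt one_pos),
    qExpansion_sub ((isHolPerBdd_E2.mul isHolPerBdd_E₆).analyticAt one_pos)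
      ((isHolPerBdd_E₄.mul isHolPerBdd_E₄).analyticAt one_pos),
    qExpansion_mul (isHolPerBdd_E2.analyticAt one_pos) (isHolPerBdd_E₆.analyticAt one_pos),
    qExpansion_mul (isHolPerBdd_E₄.analyticAt one_pos) (isHolPerBdd_E₄.analyticAt one_pos),
    qExpansion_D_eq_thetaPS isHolPerBdd_E₆, qExpansion_E2, qExpansion_E₄', qExpansion_E₆',
    thetaPS_map] at h
  rw [map_mul, map_sub, map_mul, map_pow, pow_two, ← h, map_ofNat, ofNat_mul_eq_smul]

/-- `12 θP = P² - Q` in `ℤ⟦q⟧`. -/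
theorem twelve_theta_Pz : 12 * thetaPS ℤ Pz = Pz ^ 2 - Qz := by
  apply map_injective_int
  have hfun : (12 : ℂ) • D E2 = E2 * E2 - (E₄ : ℍ → ℂ) := by
    funext z
    simp only [Pi.smul_apply, smul_eq_mul, Pi.sub_apply, Pi.mul_apply, D_E2 z]
    ring
  have h := congrArg (qExpansion 1) hfun
  rw [qExpansion_smul ((isHolPerBdd_D isHolPerBdd_E2).analyticAt one_pos),
    qExpansion_sub ((isHolPerBdd_E2.mul isHolPerBdd_E2).analyticAt one_pos)
      (isHolPerBdd_E₄.analyticAt one_pos),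
    qExpansion_mul (isHolPerBdd_E2.analyticAt one_pos) (isHolPerBdd_E2.analyticAt one_pos),
    qExpansion_D_eq_thetaPS isHolPerBdd_E2, qExpansion_E2, qExpansion_E₄',
    thetaPS_map] at h
  rw [map_mul, map_sub, map_pow, pow_two, ← h, map_ofNat, ofNat_mul_eq_smul]

end Fermat.Agent.S16lib.SwDBridge
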