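import Fermat.Agent.ProgramR.LevelOne.Ramanujan

set_option autoImplicit false

noncomputable section

namespace Fermat.Agent.S16lib.SwDBridge

open UpperHalfPlane ModularForm MatrixGroups CongruenceSubgroup SlashInvariantForm
  ModularFormClass OnePoint Filter Topology Manifold Derivative EisensteinSeries Function
open Fermat.Agent.ProgramR.LevelOne

lemma denom_eq (γ : SL(2, ℤ)) (z : ℍ) :
    denom γ z = (γ 1 0 : ℂ) * (z : ℂ) + (γ 1 1 : ℂ) := by
  simp [denom]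

lemma hasDerivAt_D2 (γ : SL(2, ℤ)) (z : ℍ) :
    HasDerivAt (D2 γ ∘ ofComplex)
      (-(2 * Real.pi * Complex.I) * ((γ 1 0 : ℂ) / denom γ z) ^ 2) (z : ℂ) := by
  have hz : ((γ 1 0 : ℂ) * (z : ℂ) + (γ 1 1 : ℂ)) ≠ 0 := by
    have := denom_ne_zero γ z
    rwa [denom_eq] at this
  have h1 : HasDerivAt (fun w : ℂ => (γ 1 0 : ℂ) * w + (γ 1 1 : ℂ)) (γ 1 0 : ℂ) (z : ℂ) := by
    simpa using ((hasDerivAt_id (z : ℂ)).const_mul (γ 1 0 : ℂ)).add_const (γ 1 1 : ℂ)
  have h2 := (h1.inv hz).const_mul (2 * Real.pi * Complex.I * (γ 1 0 : ℂ))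
  refine (h2.congr_deriv ?_).congr_of_eventuallyEq ?_
  · rw [denom_eq]
    field_simp
  · filter_upwards [isOpen_upperHalfPlaneSet.mem_nhds z.im_pos] with w hw
    simp [D2, Function.comp_apply, ofComplex_apply_of_im_pos hw, denom, div_eq_mul_inv]

/-- `D2 γ` is holomorphic. -/
lemma mdifferentiable_D2 (γ : SL(2, ℤ)) : MDiff (D2 γ) := fun z =>
  mdifferentiableAt_iff.mpr (hasDerivAt_D2 γ z).differentiableAt

lemma D_D2 (γ : SL(2, ℤ)) (z : ℍ) :
    D (D2 γ) z = -((γ 1 0 : ℂ) / denom γ z) ^ 2 := by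
  rw [normalizedDerivOfComplex, (hasDerivAt_D2 γ z).deriv]
  have hpi : (2 * Real.pi * Complex.I : ℂ) ≠ 0 := Complex.two_pi_I_ne_zero
  field_simp

end Fermat.Agent.S16lib.SwDBridge

namespace Fermat.Agent.S16lib.SwDBridge

open UpperHalfPlane ModularForm MatrixGroups CongruenceSubgroup SlashInvariantForm
  ModularFormClass OnePoint Filter Topology Manifold Derivative EisensteinSeries Function
open Fermat.Agent.ProgramR.LevelOne

/-- The weight-4 combination `D E₂ - E₂²/12`. -/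
def E2comb : ℍ → ℂ := fun z => D E2 z - 12⁻¹ * (E2 z * E2 z)

lemma riemannZeta_two_eq : riemannZeta 2 = -(2 * Real.pi * Complex.I) ^ 2 / 24 := by
  rw [riemannZeta_two, mul_pow, mul_pow, Complex.I_sq]
  ring

lemma E2comb_slash (γ : SL(2, ℤ)) : E2comb ∣[(4 : ℤ)] γ = E2comb := by
  ext z
  have hE2z : (E2 ∣[(2 : ℤ)] γ) z = E2 z - 1 / (2 * riemannZeta 2) * D2 γ z := by
    simp [E2_slash_action]
  have hmul : ((E2 * E2) ∣[(4 : ℤ)] γ) z = (E2 ∣[(2 : ℤ)] γ) z * (E2 ∣[(2 : ℤ)] γ) z :=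
    congrFun (ModularForm.mul_slash_SL2 2 2 γ E2 E2) z
  have hD : D (E2 ∣[(2 : ℤ)] γ) z = (D E2 ∣[(4 : ℤ)] γ) z -
      ((2 : ℤ) : ℂ) * (2 * Real.pi * Complex.I)⁻¹ * (γ 1 0 / denom γ z) * (E2 ∣[(2 : ℤ)] γ) z := by
    have := congrFun (normalizedDerivOfComplex_SL_slash (k := 2) E2_mdifferentiable (γ := γ)) z
    simpa using this
  have hD' : D (E2 ∣[(2 : ℤ)] γ) z =
      D E2 z + 1 / (2 * riemannZeta 2) * ((γ 1 0 : ℂ) / denom γ z) ^ 2 := by
    rw [E2_slash_action, normalizedDerivOfComplex_sub _ _ E2_mdifferentiable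
      ((mdifferentiable_D2 γ).const_smul _),
      normalizedDerivOfComplex_smul _ _ (mdifferentiable_D2 γ)]
    simp only [Pi.sub_apply, Pi.smul_apply, smul_eq_mul, D_D2]
    ring
  have hLHS : (E2comb ∣[(4 : ℤ)] γ) z = (D E2 ∣[(4 : ℤ)] γ) z -
      12⁻¹ * ((E2 * E2) ∣[(4 : ℤ)] γ) z := by
    have : E2comb = D E2 + (-(12⁻¹ : ℂ)) • (E2 * E2) := by
      ext w; simp [E2comb]; ring
    rw [this, SlashAction.add_slash, ModularForm.SL_smul_slash]
    simp
    ring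
  rw [hLHS, hmul]
  rw [hD'] at hD
  rw [hE2z] at hD ⊢
  have hD2 : D2 γ z = (2 * Real.pi * Complex.I) * ((γ 1 0 : ℂ) / denom γ z) := by
    simp only [D2]; ring
  rw [hD2, riemannZeta_two_eq] at hD ⊢
  have hw : (2 * Real.pi * Complex.I : ℂ) ≠ 0 := Complex.two_pi_I_ne_zero
  simp only [E2comb]
  generalize (2 * Real.pi * Complex.I : ℂ) = w at hD hw ⊢
  generalize ((γ 1 0 : ℂ) / denom γ z) = A at hD ⊢
  push_cast at hD
  field_simp at hD ⊢
  linear_combination (-24 : ℂ) * hD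

lemma mdifferentiable_E2comb : MDiff E2comb := by
  have h1 : MDiff (D E2) := normalizedDerivOfComplex_mdifferentiable E2_mdifferentiable
  have h2 : MDiff (E2 * E2) := E2_mdifferentiable.mul E2_mdifferentiable
  have : E2comb = D E2 - (fun _ => (12⁻¹ : ℂ)) * (E2 * E2) := by
    ext w; simp [E2comb]
  rw [this]
  exact h1.sub (mdifferentiable_const.mul h2)

lemma tendsto_E2comb : Tendsto E2comb atImInfty (𝓝 (-(12⁻¹ : ℂ))) := by
  have h1 := tendsto_D_atImInfty E2_periodic E2_mdifferentiable isBoundedAtImInfty_E2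
  have h2 := (tendsto_E2_atImInfty.mul tendsto_E2_atImInfty).const_mul (12⁻¹ : ℂ)
  have h3 := h1.sub h2
  simp only [zero_sub, mul_one] at h3
  exact h3

/-- `D E₂ - E₂²/12` as a level-one modular form of weight `4`. -/
def E2combForm : ModularForm 𝒮ℒ 4 :=
  mkLevelOne 4 E2comb E2comb_slash mdifferentiable_E2comb (tendsto_E2comb.isBigO_one ℝ)

/-- **Ramanujan's identity** `D E₂ = (E₂² - E₄) / 12`. -/
theorem D_E2 (z : ℍ) : D E2 z = (E2 z ^ 2 - E₄ z) / 12 := by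
  obtain ⟨c, hc⟩ : ∃ c : ℂ, c • E₄ = E2combForm :=
    (finrank_eq_one_iff_of_nonzero' E₄ E₄_ne_zero).mp
      (Module.rank_eq_one_iff_finrank_eq_one.mp levelOne_weight_four_rank_one) _
  have hlim1 : Tendsto E2combForm atImInfty (𝓝 (c * 1)) := by
    rw [← hc]
    exact tendsto_E₄_atImInfty.const_mul c
  have hlim2 : Tendsto E2combForm atImInfty (𝓝 (-(12⁻¹ : ℂ))) := tendsto_E2comb
  have hcval : c * 1 = -(12⁻¹ : ℂ) := tendsto_nhds_unique hlim1 hlim2
  have hz := congr_arg (fun g : ModularForm 𝒮ℒ 4 ↦ g z) hc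
  simp only [smul_apply, smul_eq_mul] at hz
  have hz' : c * E₄ z = D E2 z - 12⁻¹ * (E2 z * E2 z) := hz
  rw [mul_one] at hcval
  rw [hcval] at hz'
  linear_combination -hz'

end Fermat.Agent.S16lib.SwDBridge
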