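import Fermat.Agent.S16lib.SwDBridge.Structure


set_option autoImplicit false

noncomputable section

namespace Fermat.Agent.S16lib.SwDBridge

open UpperHalfPlane ModularForm MatrixGroups CongruenceSubgroup SlashInvariantForm
  ModularFormClass OnePoint Filter Topology Manifold Derivative EisensteinSeries Function
open Fermat.Agent.ProgramR.LevelOne Fermat.Agent.ProgramR.QExp Fermat.Agent.S28lib

/-! ### von Staudt–Clausen at `ℓ - 1` -/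

/-- `ℓ B_{ℓ-1} = -1 + ℓ y` with `y` an `ℓ`-integral rational. -/
lemma prime_mul_bernoulli {ℓ : ℕ} (hℓ : ℓ.Prime) (hodd : Odd ℓ) :
    ∃ y : ℚ, ¬ ℓ ∣ y.den ∧ (ℓ : ℚ) * bernoulli (ℓ - 1) = -1 + ℓ * y := by
  obtain ⟨k, hk⟩ := hodd
  have hk2 : ℓ - 1 = 2 * k := by omega
  obtain ⟨T, hT⟩ := Bernoulli.vonStaudt_clausen k
  set S : Finset ℕ := (Finset.range (2 * k + 2)).filter fun p => p.Prime ∧ (p - 1) ∣ 2 * k with hS
  have hmem : ℓ ∈ S := by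
    rw [hS, Finset.mem_filter, Finset.mem_range]
    refine ⟨by omega, hℓ, ?_⟩
    rw [← hk2]
  rw [← Finset.add_sum_erase S _ hmem] at hT
  set y' : ℚ := ∑ q ∈ S.erase ℓ, (1 : ℚ) / q with hy'
  have hy'den : ¬ ℓ ∣ y'.den := by
    intro hdvd
    have h1 := hdvd.trans (Finset.Rat.den_sum_dvd_prod_den (S.erase ℓ) fun q => (1 : ℚ) / q)
    rw [Prime.dvd_finsetProd_iff (Nat.prime_iff.mp hℓ)] at h1
    obtain ⟨q, hq, hdq⟩ := h1
    rw [Finset.mem_erase, hS, Finset.mem_filter] at hq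
    obtain ⟨hne, -, hqp, -⟩ := hq
    rw [show ((1 : ℚ) / q).den = q by simp [hqp.ne_zero]] at hdq
    exact hne ((Nat.prime_dvd_prime_iff_eq hℓ hqp).mp hdq).symm
  refine ⟨T - y', ?_, ?_⟩
  · intro hdvd
    have h1 := hdvd.trans (Rat.sub_den_dvd (T : ℚ) y')
    rw [Rat.den_intCast, one_mul] at h1
    exact hy'den h1
  · have hℓ0 : (ℓ : ℚ) ≠ 0 := by exact_mod_cast hℓ.ne_zero
    rw [hk2]
    have : bernoulli (2 * k) = T - 1 / ℓ - y' := by linarith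
    rw [this]
    field_simp
    ring

/-- `1 / B_{ℓ-1} = ℓ d / m` with `ℓ ∤ m`. -/
lemma inv_bernoulli {ℓ : ℕ} (hℓ : ℓ.Prime) (hodd : Odd ℓ) :
    ∃ (m : ℤ) (d : ℕ), ¬ (ℓ : ℤ) ∣ m ∧ (bernoulli (ℓ - 1))⁻¹ = (ℓ : ℚ) * d / m := by
  obtain ⟨y, hy, hB⟩ := prime_mul_bernoulli hℓ hodd
  refine ⟨ℓ * y.num - y.den, y.den, ?_, ?_⟩
  · intro hdvd
    have h1 : (ℓ : ℤ) ∣ (y.den : ℤ) := by
      have := dvd_sub (dvd_mul_right (ℓ : ℤ) y.num) hdvd
      simpa using this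
    exact hy (Int.natCast_dvd_natCast.mp h1)
  · have hℓ0 : (ℓ : ℚ) ≠ 0 := by exact_mod_cast hℓ.ne_zero
    have hd0 : (y.den : ℚ) ≠ 0 := by exact_mod_cast y.den_nz
    have hy' : y = y.num / y.den := (Rat.num_div_den y).symm
    have hm0 : ((ℓ * y.num - y.den : ℤ) : ℚ) ≠ 0 := by
      intro h0
      have h1 : (ℓ : ℤ) * y.num - y.den = 0 := by exact_mod_cast h0
      have h2 : (ℓ : ℤ) ∣ (y.den : ℤ) := ⟨y.num, by linarith⟩
      exact hy (Int.natCast_dvd_natCast.mp h2)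
    have hB' : bernoulli (ℓ - 1) = ((ℓ * y.num - y.den : ℤ) : ℚ) / (ℓ * y.den) := by
      rw [eq_div_iff (mul_ne_zero hℓ0 hd0)]
      have : bernoulli (ℓ - 1) * (ℓ * y.den) = (ℓ * bernoulli (ℓ - 1)) * y.den := by ring
      rw [this, hB]
      nth_rewrite 1 [hy']
      push_cast
      field_simp
      ring
    rw [hB', inv_div]

section Subring

variable {ℓ : ℕ} (A : Subring ℂ)

lemma int_inv_mem (hA : ∀ n : ℕ, ¬ ℓ ∣ n → ((n : ℂ))⁻¹ ∈ A) (m : ℤ) (hm : ¬ (ℓ : ℤ) ∣ m) :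
    ((m : ℂ))⁻¹ ∈ A := by
  have hn : ¬ ℓ ∣ m.natAbs := fun h => hm (Int.natCast_dvd.mpr h)
  have h1 := hA _ hn
  rcases Int.natAbs_eq m with h | h
  · rw [h]
    simpa using h1
  · have : ((m : ℂ))⁻¹ = -((m.natAbs : ℂ))⁻¹ := by
      rw [← inv_neg]
      congr 1
      have h' := congrArg (fun x : ℤ => (x : ℂ)) h
      simp only [Int.cast_neg, Int.cast_natCast] at h'
      exact h'
    rw [this]
    exact A.neg_mem h1

/-- The Eisenstein coefficient factor `2k/B_k` at `k = ℓ - 1` is `ℓ` times an element of `A`. -/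
lemma exists_two_mul_div_bernoulli (hℓ : ℓ.Prime) (hodd : Odd ℓ)
    (hA : ∀ n : ℕ, ¬ ℓ ∣ n → ((n : ℂ))⁻¹ ∈ A) :
    ∃ y : A, (2 * ((ℓ - 1 : ℕ) : ℂ) / ((bernoulli (ℓ - 1) : ℚ) : ℂ)) = (ℓ : ℂ) * (y : ℂ) := by
  obtain ⟨m, d, hm, hB⟩ := inv_bernoulli hℓ hodd
  have hmA := int_inv_mem A hA m hm
  refine ⟨((2 * (ℓ - 1) * d : ℕ) : A) * ⟨_, hmA⟩, ?_⟩
  have hB' : (((bernoulli (ℓ - 1) : ℚ) : ℂ))⁻¹ = (ℓ : ℂ) * d / m := by
    have := congrArg (fun x : ℚ => (x : ℂ)) hB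
    simpa using this
  rw [div_eq_mul_inv, hB', Subring.coe_mul, Subring.coe_natCast]
  push_cast
  ring

/-- **(S2)**: `E_{ℓ-1}` has `q`-expansion in `A⟦q⟧`, with constant term `1` and all higher
coefficients in `ℓ A`. -/
lemma exists_hasse_series (hℓ : ℓ.Prime) (h5 : 5 ≤ ℓ)
    (hA : ∀ n : ℕ, ¬ ℓ ∣ n → ((n : ℂ))⁻¹ ∈ A) (hk : 3 ≤ ℓ - 1) :
    ∃ aE : PowerSeries A, aE.map A.subtype = qExpansion 1 (E hk) ∧
      PowerSeries.coeff 0 aE = 1 ∧ ∀ n, 1 ≤ n → ∃ y : A, PowerSeries.coeff n aE = (ℓ : A) * y := by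
  have hodd : Odd ℓ := hℓ.odd_of_ne_two (by omega)
  have heven : Even (ℓ - 1) := by
    obtain ⟨j, hj⟩ := hodd
    exact ⟨j, by omega⟩
  obtain ⟨y, hy⟩ := exists_two_mul_div_bernoulli A hℓ hodd hA
  refine ⟨PowerSeries.mk fun m => if m = 0 then 1 else
    (ℓ : A) * (-(y * ((ArithmeticFunction.sigma (ℓ - 1 - 1) m : ℕ) : A))), ?_, ?_, ?_⟩
  · ext m
    rw [EisensteinSeries.E_qExpansion_coeff hk heven m, PowerSeries.coeff_map, PowerSeries.coeff_mk]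
    split_ifs with hm
    · simp
    · rw [hy]
      simp only [Subring.subtype_apply, Subring.coe_mul, Subring.coe_natCast, NegMemClass.coe_neg]
      ring
  · simp
  · intro n hn
    refine ⟨-(y * ((ArithmeticFunction.sigma (ℓ - 1 - 1) n : ℕ) : A)), ?_⟩
    rw [PowerSeries.coeff_mk, if_neg (by omega)]

end Subring

end Fermat.Agent.S16lib.SwDBridge
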